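import Mathlib
import Fermat.Agent.LT.General.Spectral.Data
import Fermat.Agent.LT.General.Spectral.Smooth
import Fermat.Agent.LT.General.Facts.Trace
import Fermat.Agent.LT.General.Level.Facts
import Fermat.Agent.LT.General.Interface
import Fermat.Agent.LT.Descent.Spectral.Final.SmoothHecke

set_option autoImplicit false

/-!
# The descended form of a vector on `K`
-/

noncomputable section

open MeasureTheory Filter NumberField IsDedekindDomain
open scoped ComplexConjugate MatrixGroups InnerProductSpace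
open FermatAgent.LT (H3 XInf GAf YSpace yVol AutDomain Cosets IsCosetOp IsHermOp unitKer placeKer
  IsFrobOver IsEigenAt q8Trace quaternionSubgroup)
open FermatAgent.Duality.Global (exists_over)

namespace FermatAgent.LTG

variable {S : Setup}

/-- Over a place with a Frobenius element in the quaternion group lies a place of degree one with the
same Frobenius element. -/
theorem Setup.exists_over_frob {v : HeightOneSpectrum (𝓞 S.K)}
    {σ : AlgebraicClosure ℚ ≃ₐ[ℚ] AlgebraicClosure ℚ} (hσ : IsFrobOver v σ)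
    (hQ : S.ρ σ ∈ quaternionSubgroup) :
    ∃ w : HeightOneSpectrum (𝓞 S.F), S.underK w = v ∧
      Ideal.absNorm w.asIdeal = Ideal.absNorm v.asIdeal ∧ IsFrobOver w σ := by
  obtain ⟨-, A, hA, hfA⟩ := hσ
  have hAv := LT.over_of_nonunits hA
  obtain ⟨w, hAw⟩ := exists_over (K := S.F) hAv.1
  have hwv : S.underK w = v := (S.over_underK hAw).eq hAv
  have hfix : σ ∈ S.F.fixingSubgroup := (S.mem_fixing_F_iff).mpr hQ
  have hnorm : Ideal.absNorm w.asIdeal = Ideal.absNorm v.asIdeal := by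
    refine le_antisymm ?_ ?_
    · refine CFT.absNorm_le_of_forall_pow_sub_mem w (CFT.two_le_absNorm v) fun x => ?_
      rw [hAw.mem_iff]
      have h := ((FermatAgent.TW.isFrobeniusAt_iff).mp hfA).2 _
        (FermatAgent.RT.mem_of_isIntegral_int A (FermatAgent.Duality.Global.toZB S.F x).2)
      rw [FermatAgent.Duality.Global.coe_toZB,
        (IntermediateField.mem_fixingSubgroup_iff _ _).mp hfix _ (x : S.F).2] at h
      rw [← neg_sub, Valuation.map_neg] at h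
      simpa using h
    · rw [← hwv, ← CFT.natCard_quotient_eq_absNorm, ← CFT.natCard_quotient_eq_absNorm]
      have : Finite (𝓞 S.F ⧸ w.asIdeal) := Ideal.finiteQuotientOfFreeOfNeBot _ w.ne_bot
      exact Nat.card_le_card_of_injective
        (Ideal.quotientMap w.asIdeal S.inclInt (le_refl (w.asIdeal.comap S.inclInt)))
        Ideal.quotientMap_injective
  exact ⟨w, hwv, hnorm, hfix, A, LT.nonunits_of_over hAw, hnorm.symm ▸ hfA⟩

namespace Setup.Level

variable (D : S.Level) (𝔇K : AutDomain PGL(2, S.K) (yVol (D.levelIdeal S.K)))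

theorem isCosetOp_levelHeckeK {v : HeightOneSpectrum (𝓞 S.K)} (hv : (S.m : 𝓞 S.K) ∉ v.asIdeal) :
    IsCosetOp (D.levelOpK * LT.heckeOp (D.levelIdeal S.K) v) :=
  D.isCosetOp_levelOpK.mul
    (LT.isCosetOp_heckeOp (D.levelIdeal_ne_bot S.K) (D.not_levelIdeal_le hv))

theorem isHermOp_levelHeckeK {v : HeightOneSpectrum (𝓞 S.K)} (hv : (S.m : 𝓞 S.K) ∉ v.asIdeal) :
    IsHermOp (D.levelOpK * LT.heckeOp (D.levelIdeal S.K) v) :=
  LT.IsHermOp.mul_of_commute D.isCosetOp_levelOpK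
    (LT.isCosetOp_heckeOp (D.levelIdeal_ne_bot S.K) (D.not_levelIdeal_le hv))
    D.isHermOp_levelOpK
    (LT.isHermOp_heckeOp (D.levelIdeal_ne_bot S.K) (D.not_levelIdeal_le hv))
    (D.commute_levelOpK hv)

/-- The operator of a good place of `K` on the vectors. -/
def heckeClmK (v : HeightOneSpectrum (𝓞 S.K)) (hv : (S.m : 𝓞 S.K) ∉ v.asIdeal) :
    𝔇K.Space →L[ℂ] 𝔇K.Space :=
  (LT.isYKernel_unitKer (D.isCosetOp_levelHeckeK hv)).clm 𝔇K

theorem commute_levelHeckeK {v v' : HeightOneSpectrum (𝓞 S.K)} (hv : (S.m : 𝓞 S.K) ∉ v.asIdeal)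
    (hv' : (S.m : 𝓞 S.K) ∉ v'.asIdeal) :
    Commute (D.levelOpK * LT.heckeOp (D.levelIdeal S.K) v) (LT.heckeOp (D.levelIdeal S.K) v') :=
  (D.commute_levelOpK hv').mul_left
    (LT.commute_heckeOp (D.levelIdeal_ne_bot S.K) (D.not_levelIdeal_le hv)
      (D.not_levelIdeal_le hv'))

theorem commute_levelHeckeK_level {v : HeightOneSpectrum (𝓞 S.K)}
    (hv : (S.m : 𝓞 S.K) ∉ v.asIdeal) :
    Commute (D.levelOpK * LT.heckeOp (D.levelIdeal S.K) v) D.levelOpK :=
  (Commute.refl D.levelOpK).mul_left (D.commute_levelOpK hv).symm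

end Setup.Level

section

variable {L : Type*} [Field L] [NumberField L] {𝔫 : Ideal (𝓞 L)} [Fact (𝔫 ≠ ⊥)]
  {T T' : Module.End ℂ (Cosets 𝔫 → ℂ)}

/-- The unit kernel commutes with the kernel of one ball. -/
theorem commute_clm_unit_place (𝔇 : AutDomain PGL(2, L) (yVol 𝔫)) (hT : IsCosetOp T)
    (hT' : IsCosetOp T') (hc : Commute T T') (w : InfinitePlace L) (ε : ℝ) :
    Commute ((LT.isYKernel_unitKer hT).clm 𝔇) ((LT.isYKernel_placeKer hT' w ε).clm 𝔇) := by
  classical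
  exact LT.commute_clm_yKer (fun _ => H3.isInvKer_ballKer 1) (fun u => LT.isInvKer_update w ε u)
    hT hT' hc 𝔇

end

namespace DescentData

variable (P : DescentData S) (𝔇K : AutDomain PGL(2, S.K) (yVol (P.D.levelIdeal S.K)))

/-- The vectors with the eigenvalues prescribed away from `v₀`. -/
structure IsVecK (u : 𝔇K.Space) : Prop where
  unit : (LT.isYKernel_unitKer P.D.isCosetOp_levelOpK).clm 𝔇K u = unitMean S.K • u
  ball : ∀ (x : InfinitePlace S.K) (q : ℚ), 0 < q →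
    (LT.isYKernel_placeKer P.D.isCosetOp_levelOpK x (q : ℝ)).clm 𝔇K u =
      ((LT.H3.sph0 (q : ℝ) : ℂ) * unitMean S.K) • u
  hecke : ∀ w (hw : S.IsLetter w), S.underK w ≠ P.v₀ →
    (LT.isYKernel_unitKer (P.D.isCosetOp_levelOpK.mul
      (KWord.isCosetOp_bcOp (D := P.D) hw.1))).clm 𝔇K u =
        (lamOf P.t w * unitMean S.K) • u
  annih : Combo.OK P.D P.σ P.w₁ P.An.A 𝔇K u = (P.An.α : ℂ) • u

/-- They form a subspace. -/
def vecsK : Submodule ℂ 𝔇K.Space where
  carrier := {u | P.IsVecK 𝔇K u}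
  zero_mem' := ⟨by rw [map_zero, smul_zero], fun _ _ _ => by rw [map_zero, smul_zero],
    fun _ _ _ => by rw [map_zero, smul_zero], by rw [map_zero, smul_zero]⟩
  add_mem' := fun ha hb =>
    ⟨by rw [map_add, ha.unit, hb.unit, smul_add],
      fun x q hq => by rw [map_add, ha.ball x q hq, hb.ball x q hq, smul_add],
      fun w hw hne => by rw [map_add, ha.hecke w hw hne, hb.hecke w hw hne, smul_add],
      by rw [map_add, ha.annih, hb.annih, smul_add]⟩
  smul_mem' := fun r _ ha =>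
    ⟨by rw [map_smul, ha.unit, smul_comm],
      fun x q hq => by rw [map_smul, ha.ball x q hq, smul_comm],
      fun w hw hne => by rw [map_smul, ha.hecke w hw hne, smul_comm],
      by rw [map_smul, ha.annih, smul_comm]⟩

theorem isVecK_of_commute {R : 𝔇K.Space →L[ℂ] 𝔇K.Space}
    (h1 : Commute ((LT.isYKernel_unitKer P.D.isCosetOp_levelOpK).clm 𝔇K) R)
    (h2 : ∀ (x : InfinitePlace S.K) (q : ℝ),
      Commute ((LT.isYKernel_placeKer P.D.isCosetOp_levelOpK x q).clm 𝔇K) R)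
    (h3 : ∀ w (hw : S.IsLetter w), Commute ((LT.isYKernel_unitKer (P.D.isCosetOp_levelOpK.mul
      (KWord.isCosetOp_bcOp (D := P.D) hw.1))).clm 𝔇K) R)
    (h4 : Commute (Combo.OK P.D P.σ P.w₁ P.An.A 𝔇K) R)
    {u : 𝔇K.Space} (hu : P.IsVecK 𝔇K u) : P.IsVecK 𝔇K (R u) where
  unit := by rw [← LT.StrongLimit.mulv, h1.eq, LT.StrongLimit.mulv, hu.unit, map_smul]
  ball x q hq := by rw [← LT.StrongLimit.mulv, (h2 x _).eq, LT.StrongLimit.mulv, hu.ball x q hq, map_smul]
  hecke w hw hne := by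
    rw [← LT.StrongLimit.mulv, (h3 w hw).eq, LT.StrongLimit.mulv, hu.hecke w hw hne, map_smul]
  annih := by rw [← LT.StrongLimit.mulv, h4.eq, LT.StrongLimit.mulv, hu.annih, map_smul]

/-- **The descended form.** -/
theorem exists_isDescended (ht : S.IsTrace P.t)
    [IsFiniteMeasure ((yVol (P.D.levelIdeal S.K)).restrict 𝔇K.carrier)] {v : 𝔇K.Space}
    (hv0 : v ≠ 0) (hv : P.IsVecK 𝔇K v) :
    ∃ (T : Finset ℕ) (φ : XInf S.K → GAf S.K → ℂ), IsDescended S P.D T φ := by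
  classical
  obtain ⟨ι, e, -⟩ := exists_hilbertBasis ℂ 𝔇K.Space
  have hα : (P.An.α : ℂ) ≠ 0 := Complex.ofReal_ne_zero.mpr P.An.α_ne_zero
  have : FiniteDimensional ℂ (P.vecsK 𝔇K) := LT.Joint.finiteDimensional_scalar
    ((Combo.hasKernelK P.D P.σ P.w₁ P.An.A 𝔇K P.An.boundK).summable_norm_sq e)
    (Combo.OK_symm P.D P.σ P.w₁ P.An.A 𝔇K) hα fun u hu => hu.annih
  have hne : P.vecsK 𝔇K ≠ ⊥ := fun h => hv0 (by
    have hm : v ∈ P.vecsK 𝔇K := hv
    rwa [h, Submodule.mem_bot] at hm)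
  have hL := P.D.isCosetOp_levelOpK
  let J := {p : HeightOneSpectrum (𝓞 S.K) // (S.m : 𝓞 S.K) ∉ p.asIdeal}
  let R : J → 𝔇K.Space →L[ℂ] 𝔇K.Space := fun j => P.D.heckeClmK 𝔇K j.1 j.2
  have hRR : ∀ i j : J, Commute (R i) (R j) := fun i j =>
    LT.commute_clm_yKer (fun _ => H3.isInvKer_ballKer 1) (fun _ => H3.isInvKer_ballKer 1)
      (P.D.isCosetOp_levelHeckeK i.2) (P.D.isCosetOp_levelHeckeK j.2)
      ((P.D.commute_levelHeckeK_level i.2).mul_right (P.D.commute_levelHeckeK i.2 j.2)) 𝔇K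
  have hRU : ∀ j, ∀ u ∈ P.vecsK 𝔇K, R j u ∈ P.vecsK 𝔇K := fun j u hu =>
    P.isVecK_of_commute 𝔇K
      (LT.commute_clm_yKer (fun _ => H3.isInvKer_ballKer 1) (fun _ => H3.isInvKer_ballKer 1) hL
        (P.D.isCosetOp_levelHeckeK j.2) (P.D.commute_levelHeckeK_level j.2).symm 𝔇K)
      (fun x q => (commute_clm_unit_place 𝔇K (P.D.isCosetOp_levelHeckeK j.2) hL
        (P.D.commute_levelHeckeK_level j.2) x q).symm)
      (fun w hw => LT.commute_clm_yKer (fun _ => H3.isInvKer_ballKer 1)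
        (fun _ => H3.isInvKer_ballKer 1) (hL.mul (KWord.isCosetOp_bcOp hw.1))
        (P.D.isCosetOp_levelHeckeK j.2)
        (((P.D.commute_levelHeckeK_level j.2).mul_right
          (P.D.commute_levelHeckeK j.2 (KWord.underK_good hw.1))).symm) 𝔇K)
      (Combo.commute_OK_yKer P.D P.σ P.w₁ P.An.A 𝔇K (fun _ => H3.isInvKer_ballKer 1)
        (P.D.isCosetOp_levelHeckeK j.2) (P.D.commute_levelHeckeK_level j.2)
        fun w hw => P.D.commute_levelHeckeK j.2 (KWord.underK_good hw))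
      hu
  obtain ⟨u, hu, hu0, hr⟩ := LT.Joint.exists_joint_eigen (T := R)
    (fun j => LT.inner_clm_yKer 𝔇K (fun _ => H3.isInvKer_ballKer 1) (fun _ => conj_ballKer 1)
      (P.D.isCosetOp_levelHeckeK j.2) (P.D.isHermOp_levelHeckeK j.2))
    hne hRU (fun i j x _ => by
      rw [← LT.StrongLimit.mulv, (hRR i j).eq, LT.StrongLimit.mulv])
  set c := unitMean S.K with hc_def
  have hc : c ≠ 0 := unitMean_ne_zero S.K
  set cr : ℝ := H3.sph0 1 ^ Fintype.card (InfinitePlace S.K)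
  have hcr : (cr : ℂ) = c := by simp [cr, hc_def, unitMean]
  have hcr0 : cr ≠ 0 := fun h => hc (by rw [← hcr, h, Complex.ofReal_zero])
  have hfin : yVol (P.D.levelIdeal S.K) 𝔇K.carrier < ⊤ := by
    simpa using measure_lt_top ((yVol (P.D.levelIdeal S.K)).restrict 𝔇K.carrier) Set.univ
  obtain ⟨Φ, hΦ, hlift, hA⟩ := exists_smooth_kernel 𝔇K hfin hL
    (Combo.isYKernel_kerK P.D P.σ P.w₁ P.An.A) P.An.boundK
    (Combo.yConv_yKer_commK P.D P.σ P.w₁ (fun _ => H3.isInvKer_ballKer 1) hL (Commute.refl _)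
      (fun _ hw => KWord.commute_levelOpK_bcOp hw) P.An.A).symm
    hα hc hu.unit hu.annih
  have hsph : ∀ (x : InfinitePlace S.K) z q, letI := Classical.decEq (InfinitePlace S.K)
      H3.IsSph0 fun Q => Φ (Function.update z x Q, q) :=
    hΦ.isSph0 𝔇K hc hL hlift fun x ε hε => hu.ball x ε (by exact_mod_cast hε)
  have hcusp := P.An.cuspK Φ _ hα hΦ.measurable hΦ.invariant hΦ.bounded hΦ.continuous hsph hA
  set φ : XInf S.K → GAf S.K → ℂ := fun x g => Φ (x, (g : Cosets (P.D.levelIdeal S.K)))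
  have hφ : φ ≠ 0 := fun h0 => hu0 (by
    refine (Lp.eq_zero_iff_ae_eq_zero).mpr ?_
    filter_upwards [𝔇K.lift_ae_restrict u, ae_restrict_of_ae hlift] with y h1 h2
    obtain ⟨x, q⟩ := y
    obtain ⟨g, rfl⟩ := QuotientGroup.mk_surjective q
    rw [← h1, h2]
    exact congrFun (congrFun h0 x) g)
  obtain ⟨x₀, g₀, hx₀⟩ : ∃ x g, φ x g ≠ 0 := by
    by_contra! h0
    exact hφ (funext fun x => funext fun g => h0 x g)
  set p₀ : ℕ := Ideal.absNorm P.w₀.asIdeal
  refine ⟨{p₀}, φ, hφ, ?_, hcusp, fun M hM x g => ?_, fun p hp => ?_⟩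
  · rw [Finset.mem_singleton]
    exact fun h => P.w₀.ne_bot (Ideal.absNorm_eq_zero_iff.mp h.symm)
  · exact P.D.levelOpK_eq_self_iff.mp (hΦ.apply_op hc hL P.D.levelOpK_idem x) M hM g
  obtain ⟨r, hr'⟩ := hr ⟨p, hp⟩
  set N : ℝ := (Ideal.absNorm p.asIdeal : ℝ)
  have hN : 0 < N := by
    have : Ideal.absNorm p.asIdeal ≠ 0 := by simp [Ideal.absNorm_eq_zero_iff, p.ne_bot]
    positivity
  set μ : ℝ := r / cr with hμ
  set l : ℝ := μ / Real.sqrt N with hl
  have hμl : μ = Real.sqrt N * l := by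
    rw [hl, mul_div_cancel₀ _ (Real.sqrt_pos.mpr hN).ne']
  have hH : ∀ x q, LT.heckeOp (P.D.levelIdeal S.K) p (fun q => Φ (x, q)) q = (μ : ℂ) * Φ (x, q) :=
    fun x q => hΦ.op_eq_smul 𝔇K hc hL
      (LT.isCosetOp_heckeOp (P.D.levelIdeal_ne_bot S.K) (P.D.not_levelIdeal_le hp))
      (P.D.commute_levelOpK hp) hlift
      (by rw [← hcr, ← Complex.ofReal_mul, hμ, div_mul_cancel₀ _ hcr0]; exact hr') x q
  refine ⟨l, fun x g => ?_, fun hout σ hσ hQ => ?_⟩
  · have h2 := hH x (g : Cosets (P.D.levelIdeal S.K))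
    rw [LT.heckeOp_mk (P.D.levelIdeal_ne_bot S.K) (P.D.not_levelIdeal_le hp) _ g x] at h2
    refine Eq.trans ?_ (h2.trans ?_)
    · rfl
    · rw [hμl, Complex.ofReal_mul]
  obtain ⟨w, hw, hnorm, hwσ⟩ := S.exists_over_frob hσ hQ
  subst hw
  have hwm : (S.m : 𝓞 S.F) ∉ w.asIdeal := fun h => hp ((S.natCast_mem_underK w _).mpr h)
  have hlet : S.IsLetter w := ⟨hwm, hnorm⟩
  have hne0 : S.underK w ≠ P.v₀ := fun h => hout _ (Finset.mem_singleton_self _) (by
    rw [h, ← P.w₀_over, S.natCast_mem_underK]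
    exact Ideal.absNorm_mem _)
  have h1 := hΦ.op_eq_smul 𝔇K hc hL (KWord.isCosetOp_bcOp hwm) (KWord.commute_levelOpK_bcOp hwm)
    hlift (hu.hecke w hlet hne0) x₀ (g₀ : Cosets (P.D.levelIdeal S.K))
  unfold Setup.Level.bcOp at h1
  rw [hH x₀] at h1
  have h3 := mul_right_cancel₀ hx₀ h1
  simp only [lamOf, hnorm] at h3
  have h4 : μ = Real.sqrt N * (P.t w : ℝ) := by exact_mod_cast h3
  rw [ht.frob w hwm σ hwσ]
  exact mul_left_cancel₀ (Real.sqrt_pos.mpr hN).ne' (hμl ▸ h4)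

end DescentData

end FermatAgent.LTG

end
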